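import Mathlib
import Fermat.Agent.LF.Dense
import Fermat.Agent.L00.Unr2
import Fermat.Agent.CC.Iface

set_option autoImplicit false
set_option linter.unusedSectionVars false
set_option linter.style.haveILetI false

/-!
# Places of `ℚbar` and primes of number fields
-/

noncomputable section

namespace Fermat.Agent.H02L

open IsDedekindDomain NumberField WithZero
open scoped Pointwise
open Fermat.Agent.LF (DK ZK)
open Fermat.Agent.CC (PrimeUnder)
open Fermat.Agent.TW (NVal Bl Bs)
open Fermat.Agent.L00.Unr (primeOf mem_primeOf primeOf_ne_bot IsUnif exists_isUnif)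

export Fermat.Agent.CC (Qb GQ)

variable {A : ValuationSubring Qb} {K : IntermediateField ℚ Qb}

section General

variable {k : Type*} [Field k] [NumberField k]

theorem val_eq_one_of_notMem (v : HeightOneSpectrum (𝓞 k)) {c : 𝓞 k} (hc : c ∉ v.asIdeal) :
    v.valuation k (c : k) = 1 := by
  apply le_antisymm (v.valuation_le_one c)
  rw [← not_lt]
  intro h
  exact hc ((v.valuation_lt_one_iff_mem c).mp h)

/-- nonzero elements are powers of a uniformizer times units at `v` -/
theorem exists_zpow (v : HeightOneSpectrum (𝓞 k)) {π : 𝓞 k} (hπ : IsUnif v.asIdeal π)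
    (hπ0 : π ≠ 0) {x : k} (hx : x ≠ 0) :
    ∃ n : ℤ, ∃ c d : 𝓞 k, c ∉ v.asIdeal ∧ d ∉ v.asIdeal ∧ x * c = (π : k) ^ n * d := by
  obtain ⟨a, b, hb, hab⟩ := IsFractionRing.div_surjective (A := 𝓞 k) x
  have hb0 : b ≠ 0 := nonZeroDivisors.ne_zero hb
  have ha0 : a ≠ 0 := by
    rintro rfl
    rw [map_zero, zero_div] at hab
    exact hx hab.symm
  obtain ⟨n, c, d, hc, hd, h3⟩ := H12.exists_mul_eq_pow_mul v.asIdeal v.ne_bot π hπ a ha0
  obtain ⟨m, c', d', hc', hd', h4⟩ := H12.exists_mul_eq_pow_mul v.asIdeal v.ne_bot π hπ b hb0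
  have hprime := v.isPrime
  refine ⟨(n : ℤ) - m, c * d', c' * d, ?_, ?_, ?_⟩
  · intro h
    exact (hprime.mem_or_mem h).elim hc hd'
  · intro h
    exact (hprime.mem_or_mem h).elim hc' hd
  · have hπk : (π : k) ≠ 0 := by exact_mod_cast hπ0
    have hbk : (b : k) ≠ 0 := by exact_mod_cast hb0
    have ex : x = (a : k) / (b : k) := hab.symm
    have e3 : (a : k) * (c : k) = (π : k) ^ n * (d : k) := by exact_mod_cast congrArg (algebraMap (𝓞 k) k) h3
    have e4 : (b : k) * (c' : k) = (π : k) ^ m * (d' : k) := by exact_mod_cast congrArg (algebraMap (𝓞 k) k) h4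
    rw [ex, zpow_sub₀ hπk, zpow_natCast, zpow_natCast]
    push_cast
    field_simp
    linear_combination (d' : k) * (π : k) ^ m * e3 - (π : k) ^ n * (d : k) * e4

end General

theorem int_mem (A : ValuationSubring Qb) [NumberField K] (x : 𝓞 K) : ((x : K) : Qb) ∈ A := by
  apply H05.mem_of_isIntegral A
  exact (NumberField.RingOfIntegers.isIntegral_coe x).map (K.val.restrictScalars ℤ)

theorem unit_of_notMem [NumberField K] {v : HeightOneSpectrum (𝓞 K)}
    (hv : primeOf A K = v.asIdeal) {c : 𝓞 K} (hc : c ∉ v.asIdeal) :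
    A.valuation ((c : K) : Qb) = 1 := by
  apply le_antisymm
  · rw [A.valuation_le_one_iff]
    exact int_mem A c
  · rw [← not_lt]
    intro h
    apply hc
    rw [← hv, mem_primeOf]
    exact (ValuationSubring.mem_nonunits_iff (A := A)).mpr h

theorem primeUnder_of_primeOf [NumberField K] {v : HeightOneSpectrum (𝓞 K)}
    (hv : primeOf A K = v.asIdeal) : PrimeUnder A K v := by
  intro x
  by_cases hx : x = 0
  · rw [hx, map_zero]
    exact ⟨fun _ => zero_le, fun _ => A.zero_mem⟩
  obtain ⟨π, hπv, hπ⟩ := exists_isUnif v.asIdeal v.ne_bot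
  have hπ0 : π ≠ 0 := by
    rintro rfl
    unfold IsUnif at hπ
    rw [Ideal.map_span, Set.image_singleton, map_zero, Ideal.span_singleton_zero] at hπ
    have := IsLocalization.AtPrime.isDiscreteValuationRing_of_dedekind_domain (𝓞 K)
      v.ne_bot (Localization.AtPrime v.asIdeal)
    exact IsDiscreteValuationRing.not_a_field _ hπ.symm
  have hπK : (π : K) ≠ 0 := by exact_mod_cast hπ0
  obtain ⟨n, c, d, hc, hd, h⟩ := exists_zpow v hπ hπ0 hx
  have h1 : v.valuation K x = v.valuation K (π : K) ^ n := by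
    have := congrArg (v.valuation K) h
    rw [map_mul, map_mul, val_eq_one_of_notMem v hc, val_eq_one_of_notMem v hd, mul_one, mul_one,
      map_zpow₀] at this
    exact this
  have h2 : A.valuation (x : Qb) = A.valuation ((π : K) : Qb) ^ n := by
    have h3 : (x : Qb) * ((c : K) : Qb) = ((π : K) : Qb) ^ n * ((d : K) : Qb) := by
      have := congrArg (fun y : K => (y : Qb)) h
      push_cast at this
      exact this
    have := congrArg A.valuation h3
    rw [map_mul, map_mul, unit_of_notMem hv hc, unit_of_notMem hv hd, mul_one, mul_one,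
      map_zpow₀] at this
    exact this
  have hv1 : v.valuation K (π : K) < 1 := (v.valuation_lt_one_iff_mem π).mpr hπv
  have hA1 : A.valuation ((π : K) : Qb) < 1 := by
    rw [← hv, mem_primeOf] at hπv
    exact (ValuationSubring.mem_nonunits_iff (A := A)).mp hπv
  have hv0 : 0 < v.valuation K (π : K) := zero_lt_iff.mpr ((map_ne_zero _).mpr hπK)
  have hA0 : 0 < A.valuation ((π : K) : Qb) := by
    refine zero_lt_iff.mpr ((map_ne_zero _).mpr ?_)
    exact_mod_cast hπK
  rw [← A.valuation_le_one_iff, h1, h2]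
  have e1 : A.valuation ((π : K) : Qb) ^ n ≤ 1 ↔ 0 ≤ n := by
    rw [← zpow_zero (A.valuation ((π : K) : Qb))]
    exact (zpow_right_strictAnti₀ hA0 hA1).le_iff_ge
  have e2 : v.valuation K (π : K) ^ n ≤ 1 ↔ 0 ≤ n := by
    rw [← zpow_zero (v.valuation K (π : K))]
    exact (zpow_right_strictAnti₀ hv0 hv1).le_iff_ge
  rw [e1, e2]

/-- the prime of `K` under `A` -/
def plc {q : ℕ} (hq : q.Prime) (hA : A.LiesOverPrime q) (K : IntermediateField ℚ Qb) :
    HeightOneSpectrum (𝓞 K) where
  asIdeal := primeOf A K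
  isPrime := inferInstance
  ne_bot := primeOf_ne_bot hq hA K

theorem primeUnder_plc {q : ℕ} (hq : q.Prime) (hA : A.LiesOverPrime q)
    (K : IntermediateField ℚ Qb) [NumberField K] : PrimeUnder A K (plc hq hA K) :=
  primeUnder_of_primeOf rfl

section

variable [NumberField K] {v : HeightOneSpectrum (𝓞 K)}

theorem primeUnder_nonunits (h : PrimeUnder A K v) (x : K) :
    (x : Qb) ∈ A.nonunits ↔ v.valuation K x < 1 := by
  rw [ValuationSubring.mem_nonunits_iff_or]
  by_cases hx : x = 0
  · rw [hx, map_zero]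
    exact ⟨fun _ => zero_lt_one, fun _ => Or.inl rfl⟩
  · have hxQ : (x : Qb) ≠ 0 := by exact_mod_cast hx
    have h1 := h x⁻¹
    rw [map_inv₀] at h1
    have h2 : ((x⁻¹ : K) : Qb) = (x : Qb)⁻¹ := rfl
    rw [h2] at h1
    have hpos : 0 < v.valuation K x := zero_lt_iff.mpr ((map_ne_zero _).mpr hx)
    constructor
    · rintro (h3 | h3)
      · exact absurd h3 hxQ
      · rw [h1, not_le, one_lt_inv₀ hpos] at h3
        exact h3
    · intro h3
      right
      rw [h1, not_le, one_lt_inv₀ hpos]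
      exact h3

theorem primeOf_of_primeUnder (h : PrimeUnder A K v) : primeOf A K = v.asIdeal := by
  ext x
  rw [mem_primeOf, primeUnder_nonunits h]
  exact v.valuation_lt_one_iff_mem x

theorem primeUnder_iff : PrimeUnder A K v ↔ primeOf A K = v.asIdeal :=
  ⟨primeOf_of_primeUnder, primeUnder_of_primeOf⟩

theorem exists_place_over (v : HeightOneSpectrum (𝓞 K)) :
    ∃ (q : ℕ) (A : ValuationSubring Qb), q.Prime ∧ A.LiesOverPrime q ∧ PrimeUnder A K v := by
  -- the residue characteristic
  obtain ⟨q, hq, hqv⟩ : ∃ q : ℕ, q.Prime ∧ (q : 𝓞 K) ∈ v.asIdeal := by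
    have hne : v.asIdeal.under ℤ ≠ ⊥ := mt Ideal.eq_bot_of_comap_eq_bot v.ne_bot
    have hp : (v.asIdeal.under ℤ).IsPrime := Ideal.IsPrime.comap _
    obtain ⟨n, hn⟩ := (IsPrincipalIdealRing.principal (v.asIdeal.under ℤ))
    have hn' : v.asIdeal.under ℤ = Ideal.span {n} := hn
    have hn0 : n ≠ 0 := by
      rintro rfl
      apply hne
      rw [hn', Ideal.span_singleton_zero]
    have hnp : Prime n := by
      rw [← Ideal.span_singleton_prime hn0, ← hn']
      exact hp
    refine ⟨n.natAbs, Int.prime_iff_natAbs_prime.mp hnp, ?_⟩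
    have h1 : ((n.natAbs : ℕ) : ℤ) ∈ v.asIdeal.under ℤ := by
      rw [hn', Ideal.mem_span_singleton]
      exact Int.dvd_natAbs.mpr dvd_rfl
    have h2 : algebraMap ℤ (𝓞 K) ((n.natAbs : ℕ) : ℤ) ∈ v.asIdeal := h1
    simpa using h2
  let ι : 𝓞 K →+* Qb := (algebraMap K Qb).comp (algebraMap (𝓞 K) K)
  have hι : Function.Injective ι :=
    (algebraMap K Qb).injective.comp (NumberField.RingOfIntegers.coe_injective)
  let e : 𝓞 K ≃+* ι.range := RingEquiv.ofBijective ι.rangeRestrict
    ⟨fun x y hxy => by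
      have h1 : ι x = ι y := congrArg (Subtype.val : ι.range → Qb) hxy
      exact hι h1, ι.rangeRestrict_surjective⟩
  let I : Ideal ι.range := v.asIdeal.map (e : 𝓞 K →+* ι.range)
  have hI : I ≠ ⊤ := by
    intro htop
    have h1 : I.comap (e : 𝓞 K →+* ι.range) = ⊤ := by rw [htop, Ideal.comap_top]
    rw [Ideal.comap_map_of_bijective (e : 𝓞 K →+* ι.range) e.bijective] at h1
    exact v.isPrime.ne_top h1
  obtain ⟨B, hB1, hB2⟩ := Ideal.image_subset_nonunits_valuationSubring I hI
  have hmem : ∀ x ∈ v.asIdeal, ((x : K) : Qb) ∈ B.nonunits := by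
    intro x hx
    exact hB2 ⟨e x, Ideal.mem_map_of_mem _ hx, rfl⟩
  have hBq : B.LiesOverPrime q := by
    have := hmem _ hqv
    have h3 : (((q : 𝓞 K) : K) : Qb) = (q : Qb) := by push_cast; rfl
    rwa [h3] at this
  refine ⟨q, B, hq, hBq, primeUnder_of_primeOf ?_⟩
  have hmax := v.isMaximal
  exact (hmax.eq_of_le (Ideal.IsPrime.ne_top inferInstance) fun x hx =>
    (mem_primeOf B K x).mpr (hmem x hx)).symm

theorem exists_conj {B : ValuationSubring Qb} {q : ℕ} (hq : q.Prime) (hA : A.LiesOverPrime q)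
    (h : PrimeUnder A K v) (h' : PrimeUnder B K v) : ∃ g ∈ K.fixingSubgroup, g • A = B := by
  refine LF.exists_smul_eq_of_trace hq hA K fun x hx _ => ?_
  have h1 := primeUnder_nonunits h ⟨x, hx⟩
  have h2 := primeUnder_nonunits h' ⟨x, hx⟩
  exact h1.trans h2.symm

end

/-- **(Ca4)** -/
theorem caPrime : Fermat.Agent.CC.CaPrime :=
  ⟨fun _ _ hq hA K _ => ⟨plc hq hA K, primeUnder_plc hq hA K⟩,
    fun _ _ v => exists_place_over v,
    fun _ _ _ hq hA _ _ _ h h' => exists_conj hq hA h h'⟩

end Fermat.Agent.H02L
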