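import Mathlib
import Fermat.Agent.H02L.Place

set_option autoImplicit false
set_option linter.unusedSectionVars false
set_option linter.style.haveILetI false

/-!
# `n`-th roots near one, and conjugate places
-/

noncomputable section

namespace Fermat.Agent.H02L

open scoped Pointwise
open Fermat.Agent.TW (NVal Bl Bs)

variable {A : ValuationSubring Qb} {q : ℕ} {w : Qb → ℝ}

theorem w_nonneg_natCast (h : NVal A q w) {n : ℕ} (hn : n ≠ 0) : 0 ≤ w (n : Qb) :=
  (h.natCast n).resolve_left (Nat.cast_ne_zero.mpr hn)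

/-- distance of a root of unity to one -/
theorem w_one_sub_le (h : NVal A q w) {n : ℕ} (hn : 0 < n) {η : Qb} (hη : η ^ n = 1)
    (hη1 : η ≠ 1) : w (1 - η) ≤ w (n : Qb) := by
  haveI : NeZero (n : Qb) := ⟨Nat.cast_ne_zero.2 hn.ne'⟩
  obtain ⟨ζ, hζ⟩ := HasEnoughRootsOfUnity.exists_primitiveRoot Qb n
  obtain ⟨m, rfl⟩ : ∃ m, n = m + 1 := ⟨n - 1, (Nat.succ_pred_eq_of_pos hn).symm⟩
  have h4 := hζ.prod_one_sub_pow_eq_order
  have hne : ∀ k ∈ Finset.range m, 1 - ζ ^ (k + 1) ≠ 0 := by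
    intro k hk h0
    rw [Finset.mem_range] at hk
    have h1 : ζ ^ (k + 1) = 1 := (sub_eq_zero.mp h0).symm
    have := hζ.dvd_of_pow_eq_one _ h1
    have := Nat.le_of_dvd (Nat.succ_pos k) this
    omega
  have h5 := congrArg w h4
  rw [h.w_prod _ _ hne] at h5
  haveI : NeZero (m + 1) := ⟨by omega⟩
  obtain ⟨i, hi, hiη⟩ := hζ.eq_pow_of_pow_eq_one hη
  have hi0 : i ≠ 0 := by
    rintro rfl
    rw [pow_zero] at hiη
    exact hη1 hiη.symm
  obtain ⟨k, rfl⟩ := Nat.exists_eq_succ_of_ne_zero hi0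
  have hk : k ∈ Finset.range m := by
    rw [Finset.mem_range]
    omega
  have hnn : ∀ k ∈ Finset.range m, 0 ≤ w (1 - ζ ^ (k + 1)) := by
    intro k hk
    have h6 : Bl w 0 (ζ ^ (k + 1)) := h.pow (n := k + 1) (x := ζ) (Or.inr (by
      rw [h.w_eq_zero_of_pow (Nat.succ_ne_zero m) hζ.pow_eq_one])) |> fun h7 => by
        simpa using h7
    exact (h.sub h.one h6).resolve_left (hne k hk)
  have h7 := Finset.single_le_sum hnn hk
  rw [h5] at h7
  rw [← hiη]
  push_cast
  exact h7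

/-- **`n`-th roots near one** -/
theorem exists_nroot (h : NVal A q w) {n : ℕ} (hn : 0 < n) {H : Subgroup GQ}
    (hH : H ≤ A.decompositionSubgroup ℚ) {y : Qb} (hy : ∀ σ ∈ H, σ y = y) {t : ℝ}
    (ht : n * w (n : Qb) < t) (hyt : Bl w t (y - 1)) :
    ∃ z : Qb, z ^ n = y ∧ ∀ σ ∈ H, σ z = z := by
  have hn0 : (0 : ℝ) < n := by exact_mod_cast hn
  have hwn := w_nonneg_natCast h hn.ne'
  have ht0 : 0 < t := lt_of_le_of_lt (by positivity) ht
  rcases eq_or_ne y 1 with rfl | hy1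
  · exact ⟨1, one_pow _, fun σ _ => map_one σ⟩
  have hw1 : t ≤ w (y - 1) := hyt.resolve_left (sub_ne_zero.2 hy1)
  haveI : NeZero (n : Qb) := ⟨Nat.cast_ne_zero.2 hn.ne'⟩
  obtain ⟨ζ, hζ⟩ := HasEnoughRootsOfUnity.exists_primitiveRoot Qb n
  obtain ⟨z0, hz0⟩ := IsAlgClosed.exists_pow_nat_eq y hn
  have h1 := hζ.pow_sub_pow_eq_prod_sub_mul 1 z0 hn
  rw [one_pow, hz0] at h1
  have hne : ∀ ξ ∈ Polynomial.nthRootsFinset n (1 : Qb), 1 - ξ * z0 ≠ 0 := by
    intro ξ hξ h0
    rw [Polynomial.mem_nthRootsFinset hn] at hξ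
    apply hy1
    have h2 : (ξ * z0) ^ n = 1 := by rw [← sub_eq_zero.1 h0, one_pow]
    rwa [mul_pow, hξ, one_mul, hz0] at h2
  have hcard : (Polynomial.nthRootsFinset n (1 : Qb)).card = n := hζ.card_nthRootsFinset
  obtain ⟨ξ, hξ, hwξ⟩ : ∃ ξ ∈ Polynomial.nthRootsFinset n (1 : Qb),
      w (n : Qb) < w (1 - ξ * z0) := by
    by_contra hcon
    push Not at hcon
    have h2 := h.w_prod _ _ hne
    rw [← h1] at h2
    have h3 := Finset.sum_le_card_nsmul _ _ _ hcon
    rw [← h2, hcard, nsmul_eq_mul, ← h.w_neg, neg_sub] at h3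
    linarith
  rw [Polynomial.mem_nthRootsFinset hn] at hξ
  set z : Qb := ξ * z0 with hz
  have hzn : z ^ n = y := by rw [hz, mul_pow, hξ, one_mul, hz0]
  refine ⟨z, hzn, fun σ hσ => ?_⟩
  by_contra hσz
  have hzne : z ≠ 0 := by
    intro h0
    rw [h0, sub_zero, h.log.one] at hwξ
    linarith
  have hclose : Bs w (w (n : Qb)) (1 - z) := Or.inr hwξ
  have hclose' : Bs w (w (n : Qb)) (1 - σ z) := by
    have h2 := h.Bs_smul (hH hσ) (x := 1 - z) (t := w (n : Qb))
    have h3 : σ (1 - z) = 1 - σ z := by rw [map_sub, map_one]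
    rw [← h3]
    exact h2.mpr hclose
  have hsub : Bs w (w (n : Qb)) (z - σ z) := by
    have h4 := h.Bs_sub hclose' hclose
    convert h4 using 1
    ring
  have hwz : w z = 0 := by
    have h5 : w (z - 0) = w z := by rw [sub_zero]
    have h6 : w ((-(1 - z)) + 1) = w 1 := by
      by_cases h7 : 1 - z = 0
      · rw [h7, neg_zero, zero_add]
      · rw [add_comm]
        refine (h.w_add_eq one_ne_zero (neg_ne_zero.mpr h7) ?_).2
        rw [h.log.one, h.w_neg]
        linarith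
    rw [h.log.one] at h6
    rw [← h6]
    congr 1
    ring
  set η : Qb := σ z / z with hη
  have hσzn : (σ z) ^ n = y := by rw [← map_pow, hzn, hy σ hσ]
  have hηn : η ^ n = 1 := by
    rw [hη, div_pow, hσzn, hzn, div_self]
    rw [← hzn]
    exact pow_ne_zero _ hzne
  have hη1 : η ≠ 1 := by
    intro h8
    rw [hη, div_eq_one_iff_eq hzne] at h8
    exact hσz h8
  have h9 := w_one_sub_le h hn hηn hη1
  have h10 : 1 - η = (z - σ z) / z := by
    rw [hη, sub_div, div_self hzne]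
  have h11 : z - σ z ≠ 0 := sub_ne_zero.mpr (Ne.symm hσz)
  rw [h10, h.w_div h11 hzne, hwz, sub_zero] at h9
  have h12 := hsub.resolve_left h11
  linarith

/-- the valuation of a conjugate place -/
theorem NVal_smul (h : NVal A q w) (g : GQ) : NVal (g • A) q (fun x => w (g⁻¹ x)) where
  log :=
    { map_mul := fun x y hx hy => by
        rw [map_mul, h.log.map_mul _ _ ((map_ne_zero _).mpr hx) ((map_ne_zero _).mpr hy)]
      lt_iff := fun x y hx hy => by
        rw [← h.log.lt_iff _ _ ((map_ne_zero _).mpr hx) ((map_ne_zero _).mpr hy)]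
        have key : ∀ (B : ValuationSubring Qb) (a b : Qb), b ≠ 0 →
            (B.valuation a < B.valuation b ↔ a / b ∈ B.nonunits) := by
          intro B a b hb
          rw [ValuationSubring.mem_nonunits_iff, map_div₀, div_lt_one₀]
          exact zero_lt_iff.mpr ((map_ne_zero _).mpr hb)
        rw [key _ _ _ hy, key _ _ _ ((map_ne_zero _).mpr hy), ← map_div₀]
        have h1 := LF.smul_nonunits_iff g⁻¹ A (x / y)
        rw [inv_inv] at h1
        exact h1 }
  norm := by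
    change w (g⁻¹ (q : Qb)) = 1
    rw [map_natCast]
    exact h.norm

end Fermat.Agent.H02L
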