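import Mathlib
import Fermat.Agent.H02L.NRoot
import Fermat.Agent.CFT.LocNorm

set_option autoImplicit false
set_option linter.unusedSectionVars false
set_option linter.style.haveILetI false

/-!
# Dictionary between real valuations on `ℚbar` and prime valuations of number fields
-/

noncomputable section

namespace Fermat.Agent.H02L

open IsDedekindDomain NumberField WithZero
open scoped Pointwise
open Fermat.Agent.CC (PrimeUnder)
open Fermat.Agent.TW (NVal Bl Bs)

variable {A : ValuationSubring Qb} {q : ℕ} {w : Qb → ℝ} {K : IntermediateField ℚ Qb}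
  [NumberField K] {v : HeightOneSpectrum (𝓞 K)}

theorem exists_ordv_one (v : HeightOneSpectrum (𝓞 K)) : ∃ x : Kˣ, CFT.ordv v x = 1 := by
  obtain ⟨π, hπ⟩ := v.valuation_exists_uniformizer K
  have h0 : π ≠ 0 := by
    rintro rfl
    rw [map_zero] at hπ
    exact (WithZero.coe_ne_zero (a := Multiplicative.ofAdd (-1 : ℤ))) hπ.symm
  refine ⟨Units.mk0 π h0, ?_⟩
  have h1 := CFT.valuation_eq v (Units.mk0 π h0)
  rw [Units.val_mk0, hπ] at h1
  have h2 : (exp (-1 : ℤ) : ℤᵐ⁰) = exp (-(CFT.ordv v (Units.mk0 π h0))) := h1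
  rw [exp_inj] at h2
  omega

/-- the real valuation is a multiple of the prime valuation -/
theorem exists_eps (h : NVal A q w) (hv : PrimeUnder A K v) :
    ∃ ε : ℝ, 0 < ε ∧ ∀ x : Kˣ, w ((x : K) : Qb) = CFT.ordv v x * ε := by
  obtain ⟨π, hπ⟩ := exists_ordv_one v
  have hπ0 : ((π : K) : Qb) ≠ 0 := by
    have := π.ne_zero
    exact_mod_cast this
  have key : ∀ u : Kˣ, CFT.ordv v u = 0 → w ((u : K) : Qb) = 0 := by
    intro u hu
    have hu0 : ((u : K) : Qb) ≠ 0 := by
      have := u.ne_zero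
      exact_mod_cast this
    have h1 : v.valuation K (u : K) = 1 := (CFT.valuation_eq_one_iff v u).mpr hu
    have h2 : ((u : K) : Qb) ∈ A := (hv _).mpr h1.le
    have h3 : (((u : K)⁻¹ : K) : Qb) ∈ A := (hv _).mpr (by rw [map_inv₀, h1, inv_one])
    have h4 := (h.mem_iff.mp h2).resolve_left hu0
    have h5 : (((u : K)⁻¹ : K) : Qb) = ((u : K) : Qb)⁻¹ := rfl
    rw [h5] at h3
    have h6 := (h.mem_iff.mp h3).resolve_left (inv_ne_zero hu0)
    have h7 : w (((u : K) : Qb) * ((u : K) : Qb)⁻¹) = _ := h.w_mul hu0 (inv_ne_zero hu0)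
    rw [mul_inv_cancel₀ hu0, h.log.one] at h7
    linarith
  refine ⟨w ((π : K) : Qb), ?_, fun x => ?_⟩
  · have h1 : v.valuation K (π : K) < 1 := by
      rw [CFT.valuation_eq, hπ, ← exp_zero, exp_lt_exp]
      norm_num
    have h2 := (primeUnder_nonunits hv (π : K)).mpr h1
    exact (h.nonunits_iff.mp h2).resolve_left hπ0
  · have h1 : CFT.ordv v (x * (π ^ (CFT.ordv v x))⁻¹) = 0 := by
      rw [CFT.ordv_mul, CFT.ordv_inv, CFT.ordv_zpow, hπ, mul_one, add_neg_cancel]
    have h2 := key _ h1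
    have hx0 : ((x : K) : Qb) ≠ 0 := by
      have := x.ne_zero
      exact_mod_cast this
    have h3 : (((x * (π ^ (CFT.ordv v x))⁻¹ : Kˣ) : K) : Qb) =
        ((x : K) : Qb) / ((π : K) : Qb) ^ (CFT.ordv v x) := by
      have h4 : (((π : K) ^ (CFT.ordv v x) : K) : Qb) = ((π : K) : Qb) ^ (CFT.ordv v x) :=
        map_zpow₀ (algebraMap K Qb) _ _
      push_cast
      rw [div_eq_mul_inv, ← h4]
    rw [h3, h.w_div hx0 (zpow_ne_zero _ hπ0), h.w_zpow hπ0] at h2
    linarith

theorem val_le_of_Bl (h : NVal A q w) (hv : PrimeUnder A K v) (m : ℕ) :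
    ∃ t : ℝ, 0 < t ∧ ∀ x : K, Bl w t (x : Qb) → v.valuation K x ≤ exp (-(m : ℤ)) := by
  obtain ⟨ε, hε, hw⟩ := exists_eps h hv
  refine ⟨(m + 1) * ε, by positivity, fun x hx => ?_⟩
  by_cases hx0 : x = 0
  · rw [hx0, map_zero]; exact zero_le
  have h1 := hx.resolve_left (by exact_mod_cast hx0)
  have h2 := hw (Units.mk0 x hx0)
  rw [Units.val_mk0] at h2
  rw [h2] at h1
  have h3 : ((m : ℝ) + 1) ≤ CFT.ordv v (Units.mk0 x hx0) := le_of_mul_le_mul_right h1 hε
  have h4 : (m : ℤ) + 1 ≤ CFT.ordv v (Units.mk0 x hx0) := by exact_mod_cast h3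
  have h5 := CFT.valuation_eq v (Units.mk0 x hx0)
  rw [Units.val_mk0] at h5
  rw [h5, exp_le_exp]
  omega

theorem Bl_of_val_le (h : NVal A q w) (hv : PrimeUnder A K v) (t : ℝ) :
    ∃ m : ℕ, ∀ x : K, v.valuation K x ≤ exp (-(m : ℤ)) → Bl w t (x : Qb) := by
  obtain ⟨ε, hε, hw⟩ := exists_eps h hv
  obtain ⟨m, hm⟩ := exists_nat_ge (t / ε)
  refine ⟨m, fun x hx => ?_⟩
  by_cases hx0 : x = 0
  · left; rw [hx0]; rfl
  right
  have h5 := CFT.valuation_eq v (Units.mk0 x hx0)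
  rw [Units.val_mk0] at h5
  rw [h5, exp_le_exp] at hx
  have h2 := hw (Units.mk0 x hx0)
  rw [Units.val_mk0] at h2
  rw [h2]
  have h3 : (m : ℝ) ≤ CFT.ordv v (Units.mk0 x hx0) := by
    have : (m : ℤ) ≤ CFT.ordv v (Units.mk0 x hx0) := by omega
    exact_mod_cast this
  rw [div_le_iff₀ hε] at hm
  calc t ≤ m * ε := hm
    _ ≤ _ := mul_le_mul_of_nonneg_right h3 hε.le

/-- products of elements close to one -/
theorem Bl_prod_sub_one (h : NVal A q w) {t : ℝ} (ht : 0 ≤ t) {ι : Type*} (s : Finset ι)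
    (f : ι → Qb) (hf : ∀ i ∈ s, Bl w t (f i - 1)) : Bl w t (∏ i ∈ s, f i - 1) := by
  classical
  induction s using Finset.induction_on with
  | empty => rw [Finset.prod_empty, sub_self]; exact NVal.zero t
  | insert a s ha ih =>
    rw [Finset.prod_insert ha]
    have h1 := hf a (Finset.mem_insert_self _ _)
    have h2 := ih fun i hi => hf i (Finset.mem_insert_of_mem hi)
    have h3 : Bl w 0 (∏ i ∈ s, f i) := by
      have := h.add (NVal.mono ht h2) h.one
      rwa [sub_add_cancel] at this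
    have h4 : f a * ∏ i ∈ s, f i - 1 = (f a - 1) * ∏ i ∈ s, f i + (∏ i ∈ s, f i - 1) := by ring
    rw [h4]
    exact h.add (h.mul_right h1 h3) h2

end Fermat.Agent.H02L
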