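import Mathlib
import Fermat.Agent.H02L.Dict

set_option autoImplicit false
set_option linter.unusedSectionVars false
set_option linter.style.haveILetI false

/-!
# Local norms
-/

noncomputable section

namespace Fermat.Agent.H02L

open IsDedekindDomain NumberField WithZero
open scoped Pointwise
open Fermat.Agent.LF (DK ZK DK_le_fix DK_le_dec mem_ZK)
open Fermat.Agent.CC (PrimeUnder)
open Fermat.Agent.TW (NVal Bl Bs)

variable {A : ValuationSubring Qb} {q : ℕ} {w : Qb → ℝ}

section Res

variable (K F : IntermediateField ℚ Qb) [Algebra K F] [IsScalarTower K F Qb]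

theorem coe_algebraMap' (x : K) : ((algebraMap K F x : F) : Qb) = x :=
  (IsScalarTower.algebraMap_apply K F Qb x).symm

theorem le_of_tower : K ≤ F := by
  intro x hx
  have h := coe_algebraMap' K F ⟨x, hx⟩
  have h2 : ((algebraMap K F ⟨x, hx⟩ : F) : Qb) = x := h
  rw [← h2]
  exact (algebraMap K F ⟨x, hx⟩).2

variable [Normal K F]

/-- restriction of automorphisms -/
def resF : K.fixingSubgroup →* (F ≃ₐ[K] F) :=
  (AlgEquiv.restrictNormalHom (K₁ := Qb) F).comp
    (IntermediateField.fixingSubgroupEquiv K).toMonoidHom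

theorem resF_apply (g : K.fixingSubgroup) (x : F) :
    ((resF K F g x : F) : Qb) = (g : GQ) (x : Qb) :=
  AlgEquiv.restrictNormal_commutes (IntermediateField.fixingSubgroupEquiv K g) F x

theorem resF_surjective : Function.Surjective (resF K F) := by
  have hg := Fermat.Agent.H51.isGalois_Qbar
  haveI : Normal K Qb := Normal.tower_top_of_normal ℚ K Qb
  intro τ
  obtain ⟨g, hg⟩ := AlgEquiv.restrictNormalHom_surjective (F := K) (K₁ := F) Qb τ
  obtain ⟨g', rfl⟩ := (IntermediateField.fixingSubgroupEquiv K).surjective g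
  exact ⟨g', hg⟩

/-- action of the local group on `F` -/
def rho (A : ValuationSubring Qb) : DK A K →* (F ≃ₐ[K] F) :=
  (resF K F).comp (Subgroup.inclusion DK_le_fix)

theorem rho_apply (g : DK A K) (x : F) : ((rho K F A g x : F) : Qb) = (g : GQ) (x : Qb) :=
  resF_apply K F _ x

theorem rho_eq_one_iff (g : DK A K) : rho K F A g = 1 ↔ (g : GQ) ∈ DK A F := by
  constructor
  · intro h
    refine ⟨g.2.1, (IntermediateField.mem_fixingSubgroup_iff F _).mpr fun x hx => ?_⟩
    have h1 := rho_apply K F g ⟨x, hx⟩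
    rw [h] at h1
    exact h1.symm
  · intro h
    apply AlgEquiv.ext
    intro x
    apply Subtype.ext
    rw [rho_apply]
    exact (IntermediateField.mem_fixingSubgroup_iff F _).mp h.2 x x.2

theorem smul_ZK (g : DK A K) {b : Qb} (hb : b ∈ ZK A F) : (g : GQ) b ∈ ZK A F := by
  rw [mem_ZK] at hb ⊢
  intro σ hσ
  have h1 : ((g⁻¹ : DK A K) : GQ) * σ * g ∈ DK A F := by
    have h2 : (⟨σ, LF.DK_mono (le_of_tower K F) hσ⟩ : DK A K) ∈ (rho K F A).ker := by
      rw [MonoidHom.mem_ker, rho_eq_one_iff]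
      exact hσ
    have h3 := (rho K F A).normal_ker.conj_mem _ h2 g⁻¹
    rw [MonoidHom.mem_ker, rho_eq_one_iff, inv_inv] at h3
    exact h3
  have h4 := hb _ h1
  have h5 := congrArg (g : GQ) h4
  rw [← AlgEquiv.mul_apply] at h5
  have h6 : (g : GQ) * (((g⁻¹ : DK A K) : GQ) * σ * g) = σ * g := by
    rw [Subgroup.coe_inv]
    group
  rw [h6, AlgEquiv.mul_apply] at h5
  exact h5

end Res

section Nrm

variable (K F : IntermediateField ℚ Qb) [Algebra K F] [IsScalarTower K F Qb] [Normal K F]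
  [FiniteDimensional K F] (A)

/-- the image of the local group in the Galois group -/
abbrev DG : Subgroup (F ≃ₐ[K] F) := (rho K F A).range

instance : Fintype (DG A K F) := Fintype.ofFinite _

/-- lifts of elements of the local Galois group -/
def lft (d : DG A K F) : DK A K := d.2.choose

theorem rho_lft (d : DG A K F) : rho K F A (lft A K F d) = d := d.2.choose_spec

/-- the local norm -/
def nrm (b : Qb) : Qb := ∏ d : DG A K F, (lft A K F d : GQ) b

variable {A K F}

theorem nrm_mul (a b : Qb) : nrm A K F (a * b) = nrm A K F a * nrm A K F b := by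
  unfold nrm
  rw [← Finset.prod_mul_distrib]
  exact Finset.prod_congr rfl fun d _ => map_mul _ _ _

theorem nrm_inv (a : Qb) : nrm A K F a⁻¹ = (nrm A K F a)⁻¹ := by
  unfold nrm
  rw [← Finset.prod_inv_distrib]
  exact Finset.prod_congr rfl fun d _ => map_inv₀ _ _

theorem nrm_one : nrm A K F 1 = 1 := by
  unfold nrm
  exact Finset.prod_eq_one fun d _ => map_one _

theorem nrm_div (a b : Qb) : nrm A K F (a / b) = nrm A K F a / nrm A K F b := by
  rw [div_eq_mul_inv, nrm_mul, nrm_inv, div_eq_mul_inv]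

theorem nrm_ne_zero {a : Qb} (ha : a ≠ 0) : nrm A K F a ≠ 0 :=
  Finset.prod_ne_zero_iff.mpr fun d _ => (map_ne_zero _).mpr ha

/-- two lifts act in the same way -/
theorem act_congr {b : Qb} (hb : b ∈ ZK A F) {g g' : DK A K}
    (h : rho K F A g = rho K F A g') : (g : GQ) b = (g' : GQ) b := by
  have h1 : rho K F A (g'⁻¹ * g) = 1 := by rw [map_mul, map_inv, h, inv_mul_cancel]
  rw [rho_eq_one_iff] at h1
  have h2 := mem_ZK.mp hb _ h1
  have h3 := congrArg (g' : GQ) h2
  rw [← AlgEquiv.mul_apply] at h3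
  have h4 : (g' : GQ) * ((g'⁻¹ * g : DK A K) : GQ) = g := by
    rw [Subgroup.coe_mul, Subgroup.coe_inv, mul_inv_cancel_left]
  rwa [h4] at h3

theorem nrm_eq_of_lifts {b : Qb} (hb : b ∈ ZK A F) (l : DG A K F → DK A K)
    (hl : ∀ d, rho K F A (l d) = d) : nrm A K F b = ∏ d, (l d : GQ) b := by
  unfold nrm
  refine Finset.prod_congr rfl fun d _ => act_congr hb ?_
  rw [hl, rho_lft]

/-- the norm with an arbitrary indexing of the local Galois group -/
theorem nrm_eq_prod {b : Qb} (hb : b ∈ ZK A F) {ι : Type*} [Fintype ι] (l : ι → DK A K)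
    (hl : Function.Bijective fun i => (⟨rho K F A (l i), ⟨l i, rfl⟩⟩ : DG A K F)) :
    nrm A K F b = ∏ i, (l i : GQ) b := by
  unfold nrm
  symm
  refine Fintype.prod_bijective _ hl _ _ fun i => act_congr hb ?_
  rw [rho_lft]

theorem nrm_mem {b : Qb} (hb : b ∈ ZK A F) : nrm A K F b ∈ ZK A K := by
  rw [mem_ZK]
  intro σ hσ
  conv_lhs => rw [nrm, map_prod]
  let s : DG A K F := ⟨rho K F A ⟨σ, hσ⟩, ⟨_, rfl⟩⟩
  have h1 : ∀ d : DG A K F, σ ((lft A K F d : GQ) b) = (lft A K F (s * d) : GQ) b := by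
    intro d
    have h2 : (((⟨σ, hσ⟩ * lft A K F d : DK A K)) : GQ) b = (lft A K F (s * d) : GQ) b := by
      apply act_congr hb
      rw [rho_lft, map_mul, rho_lft]
      rfl
    exact h2
  rw [Finset.prod_congr rfl fun d _ => h1 d]
  exact Fintype.prod_equiv (Equiv.mulLeft s) _ _ fun d => rfl

theorem nrm_of_mem_ZK {b : Qb} (hb : b ∈ ZK A K) : nrm A K F b = b ^ Fintype.card (DG A K F) := by
  unfold nrm
  rw [Finset.prod_congr rfl fun d _ => mem_ZK.mp hb _ (lft A K F d).2, Finset.prod_const,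
    Finset.card_univ]

theorem nrm_close (h : NVal A q w) {t : ℝ} (ht : 0 ≤ t) {u : Qb} (hu : Bl w t (u - 1)) :
    Bl w t (nrm A K F u - 1) := by
  unfold nrm
  refine Bl_prod_sub_one h ht _ _ fun d _ => ?_
  have h1 := (h.Bl_smul (DK_le_dec (lft A K F d).2) (t := t) (x := u - 1)).mpr hu
  rwa [map_sub, map_one] at h1

end Nrm

end Fermat.Agent.H02L
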