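import Mathlib
import Fermat.Agent.H02L.LocNorm

set_option autoImplicit false
set_option linter.unusedSectionVars false
set_option linter.style.haveILetI false

/-!
# Local norms and closures of global norms
-/

noncomputable section

namespace Fermat.Agent.H02L

open IsDedekindDomain NumberField WithZero
open scoped Pointwise
open Fermat.Agent.LF (DK ZK DK_le_fix DK_le_dec mem_ZK)
open Fermat.Agent.CC (PrimeUnder)
open Fermat.Agent.TW (NVal Bl Bs)

variable {A : ValuationSubring Qb} {q : ℕ} {w : Qb → ℝ}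

theorem exists_sec {G : Type*} [Group G] (H : Subgroup G) :
    ∃ s : G ⧸ H → G, (∀ c, (QuotientGroup.mk (s c) : G ⧸ H) = c) ∧
      s (QuotientGroup.mk 1) = 1 := by
  classical
  refine ⟨Function.update (fun c => c.out) (QuotientGroup.mk 1) 1, fun c => ?_,
    Function.update_self _ _ _⟩
  by_cases hc : c = QuotientGroup.mk 1
  · rw [hc, Function.update_self]
  · rw [Function.update_of_ne hc]
    exact QuotientGroup.out_eq' c

variable (K F : IntermediateField ℚ Qb) [Algebra K F] [IsScalarTower K F Qb] [IsGalois K F]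
  [FiniteDimensional K F] (A)

/-- representatives of the cosets of the local Galois group -/
def sec : (F ≃ₐ[K] F) ⧸ DG A K F → (F ≃ₐ[K] F) := (exists_sec (DG A K F)).choose

theorem mk_sec (c : (F ≃ₐ[K] F) ⧸ DG A K F) :
    (QuotientGroup.mk (sec A K F c) : (F ≃ₐ[K] F) ⧸ DG A K F) = c :=
  (exists_sec (DG A K F)).choose_spec.1 c

theorem sec_one : sec A K F (QuotientGroup.mk 1) = 1 := (exists_sec (DG A K F)).choose_spec.2

instance : Fintype ((F ≃ₐ[K] F) ⧸ DG A K F) := Fintype.ofFinite _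

/-- the part of the norm outside of the local Galois group -/
def pY (x : F) : F := ∏ c, (sec A K F c)⁻¹ x

variable {A K F}

theorem nrm_coe (y : F) : nrm A K F (y : Qb) =
    ∏ d : DG A K F, (((d : F ≃ₐ[K] F) y : F) : Qb) := by
  unfold nrm
  refine Finset.prod_congr rfl fun d _ => ?_
  rw [← rho_apply, rho_lft]

theorem bij_sec : Function.Bijective
    (fun x : DG A K F × ((F ≃ₐ[K] F) ⧸ DG A K F) => (x.1 : F ≃ₐ[K] F) * (sec A K F x.2)⁻¹) := by
  constructor
  · rintro ⟨d, c⟩ ⟨d', c'⟩ h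
    have h : (d : F ≃ₐ[K] F) * (sec A K F c)⁻¹ = d' * (sec A K F c')⁻¹ := h
    have h1 : sec A K F c = sec A K F c' * ((d' : F ≃ₐ[K] F)⁻¹ * d) := by
      have h2 := congrArg (fun z => sec A K F c' * (d' : F ≃ₐ[K] F)⁻¹ * z * sec A K F c) h
      have e1 : sec A K F c' * (d' : F ≃ₐ[K] F)⁻¹ * ((d : F ≃ₐ[K] F) * (sec A K F c)⁻¹) *
        sec A K F c = sec A K F c' * ((d' : F ≃ₐ[K] F)⁻¹ * d) := by group
      have e2 : sec A K F c' * (d' : F ≃ₐ[K] F)⁻¹ * ((d' : F ≃ₐ[K] F) * (sec A K F c')⁻¹) *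
        sec A K F c = sec A K F c := by group
      rw [e1, e2] at h2
      exact h2.symm
    have h3 : c = c' := by
      rw [← mk_sec A K F c, ← mk_sec A K F c', h1]
      symm
      rw [QuotientGroup.eq, inv_mul_cancel_left]
      exact (DG A K F).mul_mem ((DG A K F).inv_mem d'.2) d.2
    subst h3
    have h4 : (d : F ≃ₐ[K] F) = d' := mul_right_cancel h
    rw [Subtype.ext h4]
  · intro σ
    have h1 := mk_sec A K F (QuotientGroup.mk σ⁻¹)
    rw [QuotientGroup.eq] at h1
    have h2 : σ * sec A K F (QuotientGroup.mk σ⁻¹) ∈ DG A K F := by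
      have := (DG A K F).inv_mem h1
      rwa [mul_inv_rev, inv_inv, inv_inv] at this
    refine ⟨⟨⟨_, h2⟩, QuotientGroup.mk σ⁻¹⟩, ?_⟩
    change σ * sec A K F (QuotientGroup.mk σ⁻¹) * (sec A K F (QuotientGroup.mk σ⁻¹))⁻¹ = σ
    rw [mul_inv_cancel_right]

theorem norm_eq (x : F) : ((Algebra.norm K x : K) : Qb) = nrm A K F (pY A K F x : Qb) := by
  rw [nrm_coe, ← coe_algebraMap' K F, Algebra.norm_eq_prod_automorphisms]
  have h1 : ∀ d : DG A K F, (((d : F ≃ₐ[K] F) (pY A K F x) : F) : Qb) =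
      ∏ c, ((((d : F ≃ₐ[K] F) * (sec A K F c)⁻¹) x : F) : Qb) := by
    intro d
    rw [pY, map_prod]
    rw [← IntermediateField.coe_val F, map_prod]
    rfl
  rw [Finset.prod_congr rfl fun d _ => h1 d, ← Fintype.prod_prod_type']
  rw [← IntermediateField.coe_val F, map_prod]
  exact (Fintype.prod_bijective _ bij_sec _ _ fun i => rfl).symm

/-- lifts to the absolute Galois group -/
theorem exists_glift : ∃ g : (F ≃ₐ[K] F) ⧸ DG A K F → K.fixingSubgroup,
    (∀ c, resF K F (g c) = sec A K F c) ∧ g (QuotientGroup.mk 1) = 1 := by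
  classical
  choose g hg using fun c => resF_surjective K F (sec A K F c)
  refine ⟨Function.update g (QuotientGroup.mk 1) 1, fun c => ?_, Function.update_self _ _ _⟩
  by_cases hc : c = QuotientGroup.mk 1
  · rw [hc, Function.update_self, map_one, sec_one]
  · rw [Function.update_of_ne hc]
    exact hg c

/-- the places are independent -/
theorem indep_glift (hq : q.Prime) (hA : A.LiesOverPrime q)
    {g : (F ≃ₐ[K] F) ⧸ DG A K F → K.fixingSubgroup}
    (hg : ∀ c, resF K F (g c) = sec A K F c) (i j : (F ≃ₐ[K] F) ⧸ DG A K F) (hij : i ≠ j) :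
    LF.Indep F ((g i : GQ) • A) ((g j : GQ) • A) := by
  intro h
  obtain ⟨σ, hσ, hσA⟩ := LF.exists_smul_eq_of_trace hq
    ((Fermat.Agent.H05.liesOverPrime_smul_iff _ A q).mpr hA) F h
  apply hij
  have hσK : σ ∈ K.fixingSubgroup := IntermediateField.fixingSubgroup_antitone (le_of_tower K F) hσ
  have h1 : (g j : GQ)⁻¹ * σ * (g i : GQ) ∈ DK A K := by
    refine ⟨?_, K.fixingSubgroup.mul_mem
      (K.fixingSubgroup.mul_mem (K.fixingSubgroup.inv_mem (g j).2) hσK) (g i).2⟩
    change ((g j : GQ)⁻¹ * σ * (g i : GQ)) • A = A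
    rw [mul_smul, mul_smul, hσA, inv_smul_smul]
  have h2 : resF K F ⟨σ, hσK⟩ = 1 := by
    apply AlgEquiv.ext
    intro x
    apply Subtype.ext
    rw [resF_apply]
    exact (IntermediateField.mem_fixingSubgroup_iff F _).mp hσ x x.2
  have h3 : rho K F A ⟨_, h1⟩ = (sec A K F j)⁻¹ * sec A K F i := by
    have h4 : rho K F A ⟨_, h1⟩ = resF K F ((g j)⁻¹ * ⟨σ, hσK⟩ * g i) := rfl
    rw [h4, map_mul, map_mul, map_inv, h2, mul_one, hg, hg]
  have h5 : (QuotientGroup.mk (sec A K F j) : (F ≃ₐ[K] F) ⧸ DG A K F) =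
      QuotientGroup.mk (sec A K F i) := by
    rw [QuotientGroup.eq, ← h3]
    exact ⟨_, rfl⟩
  rw [mk_sec, mk_sec] at h5
  exact h5.symm

variable [NumberField K] [NumberField F] {v : HeightOneSpectrum (𝓞 K)}

/-- approximation: every element of the local field is, up to a local unit close to one, of the
form `pY y` -/
theorem exists_pY (hq : q.Prime) (hA : A.LiesOverPrime q) (h : NVal A q w) {b : Qb}
    (hb : b ∈ ZK A F) (hb0 : b ≠ 0) {t : ℝ} (ht : 0 < t) :
    ∃ y : Fˣ, Bl w t ((pY A K F (y : F) : Qb) / b - 1) := by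
  classical
  obtain ⟨g, hg, hg1⟩ := exists_glift (A := A) (K := K) (F := F)
  set B : (F ≃ₐ[K] F) ⧸ DG A K F → ValuationSubring Qb := fun c => (g c : GQ) • A with hB
  set w' : (F ≃ₐ[K] F) ⧸ DG A K F → Qb → ℝ := fun c x => w ((g c : GQ)⁻¹ x) with hw'
  set x : (F ≃ₐ[K] F) ⧸ DG A K F → Qb := fun c => if c = QuotientGroup.mk 1 then b else 1 with hx
  have hBA : B (QuotientGroup.mk 1) = A := by
    rw [hB]
    simp only
    rw [hg1, Subgroup.coe_one, one_smul]
  have hxZ : ∀ c, x c ∈ ZK (B c) F := by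
    intro c
    by_cases hc : c = QuotientGroup.mk 1
    · rw [hc, hBA]
      simp only [hx, if_true]
      exact hb
    · simp only [hx, if_neg hc]
      exact one_mem _
  obtain ⟨y, hyF, hy⟩ := LF.weak_approx F B (q' := fun _ => q) (fun _ => hq)
    (fun c => (Fermat.Agent.H05.liesOverPrime_smul_iff _ A q).mpr hA)
    (w := w') (fun c => NVal_smul h (g c : GQ)) (fun i j hij => indep_glift hq hA hg i j hij)
    x hxZ (t + |w b|)
  have hbw : 0 ≤ |w b| := abs_nonneg _
  -- factors
  have hact : ∀ c, ((((sec A K F c)⁻¹ (⟨y, hyF⟩ : F) : F)) : Qb) = (g c : GQ)⁻¹ y := by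
    intro c
    rw [← hg c, ← map_inv, resF_apply, Subgroup.coe_inv]
  set f : (F ≃ₐ[K] F) ⧸ DG A K F → Qb := fun c =>
    if c = QuotientGroup.mk 1 then y / b else (g c : GQ)⁻¹ y with hf
  have hfc : ∀ c ∈ (Finset.univ : Finset ((F ≃ₐ[K] F) ⧸ DG A K F)), Bl w t (f c - 1) := by
    intro c _
    by_cases hc : c = QuotientGroup.mk 1
    · simp only [hf, if_pos hc]
      have h1 := hy c
      simp only [hw', hx, if_pos hc] at h1
      have h1 : Bl w (t + |w b|) (y - b) := by
        rcases h1 with h1 | h1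
        · exact Or.inl h1
        · right
          rw [hc, hg1, Subgroup.coe_one, inv_one] at h1
          exact h1
      have h2 : y / b - 1 = (y - b) / b := by field_simp
      rw [h2]
      rcases h1 with h1 | h1
      · left; rw [h1, zero_div]
      · by_cases hyb : y - b = 0
        · left; rw [hyb, zero_div]
        right
        rw [h.w_div hyb hb0]
        have := le_abs_self (w b)
        linarith
    · simp only [hf, if_neg hc]
      have h1 := hy c
      simp only [hw', hx, if_neg hc] at h1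
      have h2 : (g c : GQ)⁻¹ y - 1 = (g c : GQ)⁻¹ (y - 1) := by rw [map_sub, map_one]
      rw [h2]
      rcases h1 with h1 | h1
      · left; rw [h1, map_zero]
      · right; linarith
  have hprod := Bl_prod_sub_one h ht.le Finset.univ f hfc
  have hpf : (pY A K F (⟨y, hyF⟩ : F) : Qb) / b = ∏ c, f c := by
    rw [pY, ← IntermediateField.coe_val F, map_prod]
    simp only [IntermediateField.coe_val]
    rw [Finset.prod_congr rfl fun c _ => hact c,
      ← Finset.mul_prod_erase Finset.univ _ (Finset.mem_univ (QuotientGroup.mk 1)),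
      ← Finset.mul_prod_erase Finset.univ f (Finset.mem_univ (QuotientGroup.mk 1))]
    have e1 : (g (QuotientGroup.mk 1) : GQ)⁻¹ y = y := by
      rw [hg1, Subgroup.coe_one, inv_one, AlgEquiv.one_apply]
    have e2 : f (QuotientGroup.mk 1) = y / b := by simp only [hf, if_true]
    rw [e1, e2, mul_div_right_comm]
    congr 1
    refine Finset.prod_congr rfl fun c hc => ?_
    simp only [hf, if_neg (Finset.mem_erase.mp hc).1]
  have hy0 : (⟨y, hyF⟩ : F) ≠ 0 := by
    intro h0
    have hy0 : y = 0 := congrArg Subtype.val h0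
    have h1 := hfc (QuotientGroup.mk 1) (Finset.mem_univ _)
    simp only [hf, if_true, hy0, zero_div, zero_sub] at h1
    rcases h1 with h1 | h1
    · exact one_ne_zero (neg_eq_zero.mp h1)
    · have h2 : w (-1 : Qb) = 0 := by
        have h3 := h.w_pow (x := (-1 : Qb)) (neg_ne_zero.mpr one_ne_zero) 2
        have h4 := h.w_pow (x := (1 : Qb)) one_ne_zero 2
        rw [neg_one_sq] at h3
        rw [one_pow] at h4
        push_cast at h3 h4
        linarith
      linarith
  refine ⟨Units.mk0 _ hy0, ?_⟩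
  rw [Units.val_mk0, hpf]
  exact hprod

theorem coe_mem_ZK (x : K) : (x : Qb) ∈ ZK A K := LF.le_ZK x.2

/-- a local norm is a limit of global norms -/
theorem exists_norm_close (hq : q.Prime) (hA : A.LiesOverPrime q) (h : NVal A q w) {b : Qb}
    (hb : b ∈ ZK A F) (hb0 : b ≠ 0) {t : ℝ} (ht : 0 < t) :
    ∃ y : Fˣ, Bl w t (((CFT.NK K F y : K) : Qb) / nrm A K F b - 1) := by
  obtain ⟨y, hy⟩ := exists_pY (K := K) hq hA h hb hb0 ht
  refine ⟨y, ?_⟩
  have h1 := nrm_close (K := K) (F := F) h ht.le hy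
  rw [nrm_div] at h1
  rw [CFT.NK_coe, norm_eq (A := A)]
  exact h1

/-- principal units are local norms -/
theorem exists_nrm_of_close (h : NVal A q w) {u : Qb} (hu : u ∈ ZK A K)
    (hut : Bl w (Fintype.card (DG A K F) * w ((Fintype.card (DG A K F) : ℕ) : Qb) + 1) (u - 1)) :
    ∃ z ∈ ZK A K, z ≠ 0 ∧ u = nrm A K F z := by
  have hn : 0 < Fintype.card (DG A K F) := Fintype.card_pos
  obtain ⟨z, hz, hzH⟩ := exists_nroot h hn (DK_le_dec (A := A) (K := K)) (mem_ZK.mp hu)
    (lt_add_one _) hut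
  have hzK : z ∈ ZK A K := mem_ZK.mpr hzH
  refine ⟨z, hzK, ?_, ?_⟩
  · rintro rfl
    rw [zero_pow hn.ne'] at hz
    rw [← hz, zero_sub] at hut
    rcases hut with h1 | h1
    · exact one_ne_zero (neg_eq_zero.mp h1)
    · have h2 : w (-1 : Qb) = 0 := by
        have h3 := h.w_pow (x := (-1 : Qb)) (neg_ne_zero.mpr one_ne_zero) 2
        have h4 := h.w_pow (x := (1 : Qb)) one_ne_zero 2
        rw [neg_one_sq] at h3
        rw [one_pow] at h4
        push_cast at h3 h4
        linarith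
      have h5 := w_nonneg_natCast h hn.ne'
      have h6 : (0 : ℝ) ≤ (Fintype.card (DG A K F) : ℝ) * w ((Fintype.card (DG A K F) : ℕ) : Qb) :=
        mul_nonneg (Nat.cast_nonneg _) h5
      linarith
  · rw [nrm_of_mem_ZK hzK, hz]

/-- **(Ca6)**: the closure of the global norms is the group of local norms -/
theorem mem_LN_iff_nrm (hq : q.Prime) (hA : A.LiesOverPrime q) (h : NVal A q w)
    (hv : PrimeUnder A K v) (a : Kˣ) :
    a ∈ CFT.LN F v ↔ ∃ b ∈ ZK A F, b ≠ 0 ∧ ((a : K) : Qb) = nrm A K F b := by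
  have ha0 : ((a : K) : Qb) ≠ 0 := by
    have := a.ne_zero
    exact_mod_cast this
  constructor
  · intro ha
    rw [CFT.mem_LN_iff] at ha
    obtain ⟨m, hm⟩ := Bl_of_val_le h hv
      (Fintype.card (DG A K F) * w ((Fintype.card (DG A K F) : ℕ) : Qb) + 1)
    obtain ⟨b, hb⟩ := ha m
    have h1 := hm _ hb
    have e1 : ((((CFT.NK K F b : K) / a - 1 : K)) : Qb) =
        ((CFT.NK K F b : K) : Qb) / ((a : K) : Qb) - 1 := by push_cast; rfl
    rw [e1] at h1
    have hmem : ((CFT.NK K F b : K) : Qb) / ((a : K) : Qb) ∈ ZK A K :=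
      div_mem (coe_mem_ZK _) (coe_mem_ZK _)
    obtain ⟨z, hz, hz0, hzu⟩ := exists_nrm_of_close (F := F) h hmem h1
    have hY0 : ((pY A K F (b : F) : F) : Qb) ≠ 0 := by
      intro h0
      have h2 : ((CFT.NK K F b : K) : Qb) = 0 := by
        rw [CFT.NK_coe, norm_eq (A := A), h0]
        unfold nrm
        exact Finset.prod_eq_zero (Finset.mem_univ 1) (map_zero _)
      have h3 := (CFT.NK K F b).ne_zero
      exact h3 (by exact_mod_cast h2)
    refine ⟨(pY A K F (b : F) : Qb) / z, div_mem (coe_mem_ZK _) (LF.ZK_mono (le_of_tower K F) hz),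
      div_ne_zero hY0 hz0, ?_⟩
    rw [nrm_div, ← hzu, ← norm_eq, ← CFT.NK_coe, div_div_cancel₀]
    have h3 := (CFT.NK K F b).ne_zero
    exact_mod_cast h3
  · rintro ⟨b, hb, hb0, hab⟩
    rw [CFT.mem_LN_iff]
    intro m
    obtain ⟨t, ht, hm⟩ := val_le_of_Bl h hv m
    obtain ⟨y, hy⟩ := exists_norm_close (K := K) hq hA h hb hb0 ht
    refine ⟨y, hm _ ?_⟩
    have e1 : ((((CFT.NK K F y : K) / a - 1 : K)) : Qb) =
        ((CFT.NK K F y : K) : Qb) / ((a : K) : Qb) - 1 := by push_cast; rfl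
    rw [e1, hab]
    exact hy

/-- **(Ca6b)**: every local element is a global element times a local norm -/
theorem exists_mul_nrm (hq : q.Prime) (hA : A.LiesOverPrime q) (h : NVal A q w) {z : Qb}
    (hz : z ∈ ZK A K) (hz0 : z ≠ 0) :
    ∃ a : Kˣ, ∃ b ∈ ZK A K, b ≠ 0 ∧ z = ((a : K) : Qb) * nrm A K F b := by
  have hn : 0 < Fintype.card (DG A K F) := Fintype.card_pos
  have h5 := w_nonneg_natCast h hn.ne'
  set T : ℝ := Fintype.card (DG A K F) * w ((Fintype.card (DG A K F) : ℕ) : Qb) + 1 with hT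
  have hT0 : 0 < T := by
    have h6 : (0 : ℝ) ≤ (Fintype.card (DG A K F) : ℝ) * w ((Fintype.card (DG A K F) : ℕ) : Qb) :=
      mul_nonneg (Nat.cast_nonneg _) h5
    linarith
  haveI : FiniteDimensional ℚ K := inferInstance
  obtain ⟨y, hyK, hy⟩ := LF.dense hq hA h K hz (T + w z)
  have hy0 : y ≠ 0 := by
    rintro rfl
    rw [zero_sub] at hy
    rcases hy with h1 | h1
    · exact hz0 (neg_eq_zero.mp h1)
    · have h2 : w (-z) = w z := by
        have h3 := h.w_pow (x := (-z : Qb)) (neg_ne_zero.mpr hz0) 2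
        have h4 := h.w_pow (x := z) hz0 2
        rw [neg_sq] at h3
        push_cast at h3 h4
        linarith
      linarith
  have h1 : Bl w T (z / y - 1) := by
    have hwy : w y = w z := by
      refine (h.w_eq_of_Bs_sub hz0 ?_).2
      rcases hy with h1 | h1
      · exact Or.inl h1
      · exact Or.inr (by linarith)
    have e1 : z / y - 1 = -(y - z) / y := by field_simp; ring
    rw [e1]
    have h3 := h.Bl_div hy0 (h.neg hy)
    rwa [hwy, add_sub_cancel_right] at h3
  have hmem : z / y ∈ ZK A K := div_mem hz (LF.le_ZK hyK)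
  obtain ⟨b, hb, hb0, hbu⟩ := exists_nrm_of_close (F := F) h hmem h1
  refine ⟨Units.mk0 ⟨y, hyK⟩ (fun h0 => hy0 (congrArg Subtype.val h0)), b, hb, hb0, ?_⟩
  rw [Units.val_mk0, ← hbu, mul_div_cancel₀ _ hy0]

end Fermat.Agent.H02L
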